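import Mathlib.FieldTheory.IsAlgClosed.AlgebraicClosure
import Mathlib.FieldTheory.Galois.Basic
import Mathlib.Algebra.Algebra.Rat

/-!
# Instances for `AlgebraicClosure ℚ` as an algebra over `ℚ`

With `Fermat.Prelude.Def_GaloisRep_Adic` imported, the algebra structure of `AlgebraicClosure ℚ`
over `ℚ` is found as `DivisionRing.toRatAlgebra`, for which instance search does not find the
field-theoretic (`Prop`-valued) instances below.
-/

set_option autoImplicit false

namespace Fermat.Agent.Galois

instance qbar_isAlgebraic : Algebra.IsAlgebraic ℚ (AlgebraicClosure ℚ) :=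
  AlgebraicClosure.isAlgebraic ℚ

instance qbar_isAlgClosure : IsAlgClosure ℚ (AlgebraicClosure ℚ) :=
  ⟨AlgebraicClosure.isAlgClosed ℚ, AlgebraicClosure.isAlgebraic ℚ⟩

instance qbar_isGalois : IsGalois ℚ (AlgebraicClosure ℚ) :=
  IsAlgClosure.isGalois ℚ (AlgebraicClosure ℚ)

end Fermat.Agent.Galois
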