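import Fermat.Prelude.Def_EllipticCurve_FrobeniusTrace
import Fermat.Agent.Galois.QbarInstances
import Mathlib.RingTheory.Valuation.LocalSubring
import Mathlib.RingTheory.Invariant.Profinite
import Mathlib.FieldTheory.Galois.Infinite
import Mathlib.FieldTheory.Galois.Profinite
import Mathlib.RingTheory.Polynomial.Content
import Mathlib.RingTheory.Localization.Integral

/-!
# Primes of the algebraic closure of `ℚ` and Frobenius elements

* every rational prime `ℓ` has a valuation subring of `AlgebraicClosure ℚ` over it;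
* such a valuation subring is the localisation of the ring of algebraic integers at its centre;
* the Galois group acts transitively on them;
* each of them has a Frobenius element.
-/

set_option autoImplicit false

open scoped Pointwise

namespace Fermat.Agent.Galois

scoped notation "Q̄" => AlgebraicClosure ℚ

/-- Algebraic integers belong to every valuation subring. -/
theorem mem_valuationSubring_of_isIntegral {K : Type*} [Field K] (A : ValuationSubring K) {x : K}
    (hx : IsIntegral ℤ x) : x ∈ A := by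
  obtain ⟨y, hy⟩ := IsIntegrallyClosed.algebraMap_eq_of_integral
    (IsIntegral.tower_top (A := A) hx)
  exact hy ▸ y.2

/-- Every element of a valuation subring of `Q̄` is a quotient of algebraic integers whose
denominator is a unit of the valuation subring. -/
theorem exists_integral_num_den (A : ValuationSubring Q̄) {x : Q̄} (hx : x ∈ A) :
    ∃ b s : Q̄, IsIntegral ℤ b ∧ IsIntegral ℤ s ∧ s ∉ A.nonunits ∧ x * s = b := by
  classical
  have halg : IsAlgebraic ℤ x :=
    (IsFractionRing.isAlgebraic_iff ℤ ℚ Q̄).mpr (Algebra.IsAlgebraic.isAlgebraic x)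
  obtain ⟨f₀, hf₀, hf₀x⟩ := halg
  set f := f₀.primPart with hf
  have hfp : f.IsPrimitive := Polynomial.isPrimitive_primPart f₀
  have hfx : Polynomial.aeval x f = 0 :=
    Polynomial.aeval_primPart_eq_zero hf₀ hf₀x
  set N := f.natDegree with hN
  -- the truncated Horner sums
  let b : ℕ → Q̄ := fun i => ∑ j ∈ Finset.range (N + 1 - i), (f.coeff (i + j) : Q̄) * x ^ j
  have hrec : ∀ i, i ≤ N → b i = (f.coeff i : Q̄) + x * b (i + 1) := by
    intro i hi
    simp only [b]
    rw [show N + 1 - i = (N + 1 - (i + 1)) + 1 by omega, Finset.sum_range_succ',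
      Finset.mul_sum]
    rw [add_comm]
    congr 1
    · simp
    · refine Finset.sum_congr rfl fun j _ => ?_
      rw [show i + (j + 1) = i + 1 + j by omega]; ring
  have hb0 : b 0 = 0 := by
    rw [← hfx, Polynomial.aeval_eq_sum_range]
    simp [b, hN, zsmul_eq_mul]
  have htop : b (N + 1) = 0 := by simp [b]
  -- they lie in every valuation subring
  have hmem : ∀ (V : ValuationSubring Q̄) (i : ℕ), b i ∈ V := by
    intro V
    rcases V.mem_or_inv_mem x with h | h
    · intro i
      exact sum_mem fun j _ => mul_mem (intCast_mem V _) (pow_mem h j)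
    · intro i
      induction i with
      | zero => rw [hb0]; exact zero_mem _
      | succ i ih =>
        by_cases hi : i ≤ N
        · by_cases hx0 : x = 0
          · exact sum_mem fun j _ => mul_mem (intCast_mem V _) (pow_mem (hx0 ▸ zero_mem _) j)
          · have h2 : b (i + 1) = x⁻¹ * (b i - (f.coeff i : Q̄)) := by
              rw [hrec i hi]; field_simp; ring
            rw [h2]
            exact mul_mem h (sub_mem ih (intCast_mem V _))
        · have h2 : b (i + 1) = 0 := by simp [b, show N + 1 - (i + 1) = 0 by omega]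
          rw [h2]; exact zero_mem _
  have hint : ∀ i, IsIntegral ℤ (b i) := by
    intro i
    have hmem' : b i ∈ (⨅ V : {V : ValuationSubring Q̄ // (∅ : Set Q̄) ⊆ V.toSubring},
        V.1.toSubring) := Subring.mem_iInf.mpr fun V => hmem V.1 i
    rw [iInf_valuationSubring_superset] at hmem'
    have : Algebra.IsIntegral ℤ (Subring.closure (∅ : Set Q̄)) := ⟨fun y => by
      obtain ⟨n, hn⟩ : ∃ n : ℤ, (n : Q̄) = (y : Q̄) :=
        Subring.mem_bot.mp ((le_of_eq Subring.closure_empty) y.2)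
      have hy : y = (algebraMap ℤ _ n) := Subtype.ext (by simp [hn])
      rw [hy]
      exact isIntegral_algebraMap⟩
    exact isIntegral_trans (R := ℤ) (A := Subring.closure (∅ : Set Q̄)) _
      (show IsIntegral (Subring.closure (∅ : Set Q̄)) (b i) from hmem')
  -- some of them is a unit of `A`
  have hex : ∃ i, i ≤ N ∧ b (i + 1) ∉ A.nonunits := by
    by_contra hcon
    push Not at hcon
    have hall : ∀ k ≤ N + 1, b k ∈ A.nonunits := by
      intro k hk
      rcases k with _ | i
      · rw [hb0]; exact zero_mem _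
      · exact hcon i (by omega)
    let φ : ℤ →+* A := Int.castRingHom A
    let I : Ideal ℤ := (IsLocalRing.maximalIdeal A).comap φ
    have hcoef : ∀ k, f.coeff k ∈ I := by
      intro k
      by_cases hk : k ≤ N
      · show φ (f.coeff k) ∈ IsLocalRing.maximalIdeal A
        have hxb : (⟨x, hx⟩ : A) * ⟨b (k + 1), hmem A _⟩ ∈ IsLocalRing.maximalIdeal A :=
          Ideal.mul_mem_left _ _
            (ValuationSubring.coe_mem_nonunits_iff.mp (hall (k + 1) (by omega)))
        have hbk : (⟨b k, hmem A k⟩ : A) ∈ IsLocalRing.maximalIdeal A :=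
          ValuationSubring.coe_mem_nonunits_iff.mp (hall k (by omega))
        have : φ (f.coeff k) = (⟨b k, hmem A k⟩ : A) - ⟨x, hx⟩ * ⟨b (k + 1), hmem A _⟩ :=
          Subtype.ext (by simp [φ, hrec k hk])
        rw [this]
        exact sub_mem hbk hxb
      · rw [Polynomial.coeff_eq_zero_of_natDegree_lt (by omega)]; exact zero_mem _
    obtain ⟨g, hg⟩ := (IsPrincipalIdealRing.principal I).principal
    have hdvd : Polynomial.C g ∣ f := Polynomial.C_dvd_iff_dvd_coeff _ _ |>.mpr fun k =>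
      Ideal.mem_span_singleton.mp (show f.coeff k ∈ Submodule.span ℤ {g} by rw [← hg]; exact hcoef k)
    have hgu : IsUnit g := hfp g hdvd
    have : I = ⊤ := by rw [hg]; exact Ideal.span_singleton_eq_top.mpr hgu
    exact (IsLocalRing.maximalIdeal.isMaximal A).ne_top (Ideal.comap_eq_top_iff.mp this)
  obtain ⟨i, hi, hu⟩ := hex
  refine ⟨x * b (i + 1), b (i + 1), ?_, hint _, hu, rfl⟩
  have : x * b (i + 1) = b i - (f.coeff i : Q̄) := by rw [hrec i hi]; ring
  rw [this]
  exact (hint i).sub (isIntegral_algebraMap (x := f.coeff i))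

/-- Two valuation subrings of `Q̄` are equal as soon as they have the same centre on the ring of
algebraic integers. -/
theorem valuationSubring_eq_of_centre_eq {A B : ValuationSubring Q̄}
    (h : ∀ x : Q̄, IsIntegral ℤ x → (x ∈ A.nonunits ↔ x ∈ B.nonunits)) : A = B := by
  suffices key : ∀ A B : ValuationSubring Q̄,
      (∀ x : Q̄, IsIntegral ℤ x → (x ∈ A.nonunits ↔ x ∈ B.nonunits)) → ∀ x ∈ A, x ∈ B from
    SetLike.ext fun x => ⟨key A B h x, key B A (fun y hy => (h y hy).symm) x⟩
  intro A B h x hx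
  obtain ⟨b, s, hb, hs, hsu, hxs⟩ := exists_integral_num_den A hx
  have hsB : s ∉ B.nonunits := fun hh => hsu ((h s hs).mpr hh)
  rw [ValuationSubring.mem_nonunits_iff_or] at hsB
  push Not at hsB
  rw [eq_div_iff hsB.1 |>.mpr hxs, div_eq_mul_inv]
  exact mul_mem (mem_valuationSubring_of_isIntegral B hb) hsB.2

/-- For a valuation subring over the prime `ℓ`, an integer is a nonunit iff `ℓ` divides it. -/
theorem intCast_mem_nonunits_iff {K : Type*} [Field K] {ℓ : ℕ} (hℓ : ℓ.Prime)
    {A : ValuationSubring K} (hA : A.LiesOverPrime ℓ) (n : ℤ) :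
    (n : K) ∈ A.nonunits ↔ (ℓ : ℤ) ∣ n := by
  let φ : ℤ →+* A := Int.castRingHom A
  let I : Ideal ℤ := (IsLocalRing.maximalIdeal A).comap φ
  have hI : ∀ m : ℤ, m ∈ I ↔ (m : K) ∈ A.nonunits := fun m => by
    show φ m ∈ IsLocalRing.maximalIdeal A ↔ _
    rw [← ValuationSubring.coe_mem_nonunits_iff]
    simp [φ]
  have hle : Ideal.span {(ℓ : ℤ)} ≤ I :=
    (Ideal.span_singleton_le_iff_mem _).mpr ((hI _).mpr (by simpa [ValuationSubring.LiesOverPrime] using hA))
  have heq : Ideal.span {(ℓ : ℤ)} = I := by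
    have hmax : (Ideal.span {(ℓ : ℤ)}).IsMaximal :=
      PrincipalIdealRing.isMaximal_of_irreducible (Nat.prime_iff_prime_int.mp hℓ).irreducible
    refine hmax.eq_of_le ?_ hle
    exact fun htop => (IsLocalRing.maximalIdeal.isMaximal A).ne_top (Ideal.comap_eq_top_iff.mp htop)
  rw [← hI, ← heq, Ideal.mem_span_singleton]

/-- Every prime number has a valuation subring of `Q̄` over it. -/
theorem exists_liesOverPrime {ℓ : ℕ} (hℓ : ℓ.Prime) :
    ∃ A : ValuationSubring Q̄, A.LiesOverPrime ℓ := by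
  let R : Subring Q̄ := (Int.castRingHom Q̄).range
  let e : ℤ ≃+* R := RingEquiv.ofBijective (Int.castRingHom Q̄).rangeRestrict
    ⟨fun a b h => Int.cast_injective (congrArg Subtype.val h),
      (Int.castRingHom Q̄).rangeRestrict_surjective⟩
  let I : Ideal R := Ideal.comap (e.symm : R →+* ℤ) (Ideal.span {(ℓ : ℤ)})
  have hI : I ≠ ⊤ := fun h => by
    have h2 := Ideal.span_singleton_eq_top.mp (Ideal.comap_eq_top_iff.mp h)
    exact (Nat.prime_iff_prime_int.mp hℓ).not_isUnit h2
  obtain ⟨A, -, hA⟩ := Ideal.image_subset_nonunits_valuationSubring I hI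
  refine ⟨A, hA ⟨e ℓ, ?_, ?_⟩⟩
  · show e.symm (e (ℓ : ℤ)) ∈ Ideal.span {(ℓ : ℤ)}
    rw [RingEquiv.symm_apply_apply]; exact Ideal.mem_span_singleton_self _
  · simp [e]

/-- The centre of a valuation subring on the ring of algebraic integers of `Q̄`. -/
noncomputable def centre (A : ValuationSubring Q̄) : Ideal (integralClosure ℤ Q̄) :=
  (IsLocalRing.maximalIdeal A).comap
    ({ toFun := fun x => ⟨x.1, mem_valuationSubring_of_isIntegral A x.2⟩
       map_one' := rfl
       map_mul' := fun _ _ => rfl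
       map_zero' := rfl
       map_add' := fun _ _ => rfl } : integralClosure ℤ Q̄ →+* A)

theorem mem_centre {A : ValuationSubring Q̄} {x : integralClosure ℤ Q̄} :
    x ∈ centre A ↔ (x : Q̄) ∈ A.nonunits :=
  (ValuationSubring.coe_mem_nonunits_iff (a := (⟨x.1, mem_valuationSubring_of_isIntegral A x.2⟩ : A))).symm

instance centre_isPrime (A : ValuationSubring Q̄) : (centre A).IsPrime :=
  Ideal.IsPrime.comap _

theorem centre_under {ℓ : ℕ} (hℓ : ℓ.Prime) {A : ValuationSubring Q̄} (hA : A.LiesOverPrime ℓ) :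
    Ideal.span {(ℓ : ℤ)} = (centre A).under ℤ := by
  ext n
  rw [Ideal.mem_span_singleton, ← intCast_mem_nonunits_iff hℓ hA, Ideal.mem_comap, mem_centre]
  simp

theorem mem_smul_nonunits (σ : Q̄ ≃ₐ[ℚ] Q̄) (A : ValuationSubring Q̄) (x : Q̄) :
    x ∈ (σ • A).nonunits ↔ σ⁻¹ • x ∈ A.nonunits := by
  rw [ValuationSubring.mem_nonunits_iff_or, ValuationSubring.mem_nonunits_iff_or,
    ValuationSubring.mem_pointwise_smul_iff_inv_smul_mem, smul_inv'']
  simp

theorem smul_eq_of_centre (σ : Q̄ ≃ₐ[ℚ] Q̄) (A B : ValuationSubring Q̄)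
    (h : σ • centre A = centre B) : σ • A = B := by
  refine valuationSubring_eq_of_centre_eq fun x hx => ?_
  have h2 := congrArg (fun I : Ideal (integralClosure ℤ Q̄) => (⟨x, hx⟩ : integralClosure ℤ Q̄) ∈ I) h
  simp only [Ideal.mem_pointwise_smul_iff_inv_smul_mem, mem_centre, integralClosure.coe_smul] at h2
  rw [mem_smul_nonunits]
  exact h2 ▸ Iff.rfl

section Action

local instance intTopology : TopologicalSpace (integralClosure ℤ Q̄) := ⊥

local instance intDiscrete : DiscreteTopology (integralClosure ℤ Q̄) := ⟨rfl⟩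

local instance intContinuousSMul : ContinuousSMul (Q̄ ≃ₐ[ℚ] Q̄) (integralClosure ℤ Q̄) := by
  rw [continuousSMul_iff_stabilizer_isOpen]
  intro b
  have : MulAction.stabilizer (Q̄ ≃ₐ[ℚ] Q̄) b = MulAction.stabilizer (Q̄ ≃ₐ[ℚ] Q̄) (b : Q̄) := by
    ext σ; simp [Subtype.ext_iff]
  rw [this]
  exact stabilizer_isOpen_of_isIntegral _

local instance intInvariant : Algebra.IsInvariant ℤ (integralClosure ℤ Q̄) (Q̄ ≃ₐ[ℚ] Q̄) := by
  refine ⟨fun b hb => ?_⟩
  have h : (b : Q̄) ∈ IntermediateField.fixedField (⊤ : Subgroup (Q̄ ≃ₐ[ℚ] Q̄)) := fun ⟨σ, _⟩ => by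
    simpa [Subtype.ext_iff] using hb σ
  rw [InfiniteGalois.fixedField_bot, IntermediateField.mem_bot] at h
  obtain ⟨q, hq⟩ := h
  have hq' : IsIntegral ℤ q := by
    rw [← isIntegral_algebraMap_iff (FaithfulSMul.algebraMap_injective ℚ Q̄), hq]
    exact b.2
  obtain ⟨n, rfl⟩ := IsIntegrallyClosed.algebraMap_eq_of_integral hq'
  exact ⟨n, Subtype.ext (by simpa using hq)⟩

/-- The valuation subrings over a given prime are conjugate. -/
theorem exists_smul_eq_of_liesOverPrime {ℓ : ℕ} (hℓ : ℓ.Prime) {A B : ValuationSubring Q̄}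
    (hA : A.LiesOverPrime ℓ) (hB : B.LiesOverPrime ℓ) :
    ∃ σ : Q̄ ≃ₐ[ℚ] Q̄, σ • A = B := by
  obtain ⟨σ, hσ⟩ := Algebra.IsInvariant.exists_smul_of_under_eq_of_profinite (A := ℤ)
    (G := Q̄ ≃ₐ[ℚ] Q̄) (centre A) (centre B) ((centre_under hℓ hA).symm.trans (centre_under hℓ hB))
  exact ⟨σ, smul_eq_of_centre σ A B hσ.symm⟩

/-- Every valuation subring over `ℓ` has a Frobenius element. -/
theorem exists_isFrobeniusAt {ℓ : ℕ} (hℓ : ℓ.Prime) {A : ValuationSubring Q̄}
    (hA : A.LiesOverPrime ℓ) : ∃ σ : Q̄ ≃ₐ[ℚ] Q̄, A.IsFrobeniusAt σ ℓ := by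
  have := Fact.mk hℓ
  set P := Ideal.span {(ℓ : ℤ)} with hP
  set Q := centre A with hQ
  have : Q.LiesOver P := ⟨centre_under hℓ hA⟩
  have hchar : CharP (integralClosure ℤ Q̄ ⧸ Q) ℓ := by
    refine (CharP.charP_iff_prime_eq_zero hℓ).mpr ?_
    rw [← map_natCast (Ideal.Quotient.mk Q), Ideal.Quotient.eq_zero_iff_mem, hQ, mem_centre]
    simpa [ValuationSubring.LiesOverPrime] using hA
  have hfr : Function.Bijective (frobenius (integralClosure ℤ Q̄ ⧸ Q) ℓ) := by
    refine ⟨frobenius_inj _ ℓ, fun y => ?_⟩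
    obtain ⟨y, rfl⟩ := Ideal.Quotient.mk_surjective y
    obtain ⟨z, hz⟩ := IsAlgClosed.exists_pow_nat_eq (y : Q̄) hℓ.pos
    refine ⟨Ideal.Quotient.mk Q ⟨z, IsIntegral.of_pow hℓ.pos (hz ▸ y.2)⟩, ?_⟩
    rw [frobenius_def, ← map_pow]
    exact congrArg _ (Subtype.ext hz)
  let F : (integralClosure ℤ Q̄ ⧸ Q) ≃ₐ[ℤ ⧸ P] (integralClosure ℤ Q̄ ⧸ Q) :=
    AlgEquiv.ofRingEquiv (f := RingEquiv.ofBijective _ hfr) fun r => by
      obtain ⟨n, rfl⟩ := Ideal.Quotient.mk_surjective r
      rw [← RingHom.comp_apply, RingEquiv.coe_ofBijective]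
      simp [eq_intCast]
  obtain ⟨⟨σ, hσQ⟩, hσ⟩ :=
    Ideal.Quotient.stabilizerHom_surjective_of_profinite (G := Q̄ ≃ₐ[ℚ] Q̄) P Q F
  have hσA : σ ∈ A.decompositionSubgroup ℚ :=
    MulAction.mem_stabilizer_iff.mpr (smul_eq_of_centre σ A A hσQ)
  refine ⟨σ, hσA, fun y => ?_⟩
  -- the ring homomorphisms `σ` and `x ↦ x ^ ℓ` agree on the image of the algebraic integers
  obtain ⟨y, rfl⟩ := IsLocalRing.residue_surjective y
  obtain ⟨b, s, hb, hs, hsu, hys⟩ := exists_integral_num_den A y.2
  have key : ∀ c : integralClosure ℤ Q̄,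
      (⟨σ, hσA⟩ : A.decompositionSubgroup ℚ) •
        IsLocalRing.residue A ⟨c.1, mem_valuationSubring_of_isIntegral A c.2⟩ =
      (IsLocalRing.residue A ⟨c.1, mem_valuationSubring_of_isIntegral A c.2⟩) ^ ℓ := by
    intro c
    have h1 := DFunLike.congr_fun hσ (Ideal.Quotient.mk Q c)
    replace h1 : Ideal.Quotient.mk Q (σ • c) = Ideal.Quotient.mk Q (c ^ ℓ) := by
      rw [map_pow]; exact h1
    rw [Ideal.Quotient.eq, hQ, mem_centre] at h1
    rw [← map_pow, ← IsLocalRing.ResidueField.residue_smul, ← sub_eq_zero, ← map_sub,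
      IsLocalRing.residue_eq_zero_iff, ← ValuationSubring.coe_mem_nonunits_iff]
    exact h1
  set bA : A := ⟨b, mem_valuationSubring_of_isIntegral A hb⟩ with hbA
  set sA : A := ⟨s, mem_valuationSubring_of_isIntegral A hs⟩ with hsA
  have hprod : IsLocalRing.residue A y * IsLocalRing.residue A sA = IsLocalRing.residue A bA := by
    rw [← map_mul]; exact congrArg _ (Subtype.ext hys)
  have hsne : IsLocalRing.residue A sA ^ ℓ ≠ 0 := by
    apply pow_ne_zero
    rw [Ne, IsLocalRing.residue_eq_zero_iff, ← ValuationSubring.coe_mem_nonunits_iff]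
    exact hsu
  have h2 := congrArg ((⟨σ, hσA⟩ : A.decompositionSubgroup ℚ) • ·) hprod
  simp only [smul_mul', key ⟨b, hb⟩, key ⟨s, hs⟩, hbA, hsA] at h2
  rw [← hbA, ← hsA, ← hprod, mul_pow] at h2
  exact mul_right_cancel₀ hsne h2

end Action

/-- For every prime `ℓ` there are a valuation subring over `ℓ` and a Frobenius element at it. -/
theorem exists_valuationSubring_isFrobeniusAt {ℓ : ℕ} (hℓ : ℓ.Prime) :
    ∃ (A : ValuationSubring Q̄) (σ : Q̄ ≃ₐ[ℚ] Q̄), A.LiesOverPrime ℓ ∧ A.IsFrobeniusAt σ ℓ :=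
  let ⟨A, hA⟩ := exists_liesOverPrime hℓ
  let ⟨σ, hσ⟩ := exists_isFrobeniusAt hℓ hA
  ⟨A, σ, hA, hσ⟩

end Fermat.Agent.Galois
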