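/-
A tame generator of inertia in the absolute Galois group of `ℚ`.

For a place `A` of `ℚ̄` over a prime `q` there are a single inertia element `τ`, and for every
Frobenius element `σ` relations which hold in every finite quotient in which inertia has no
element of order `q`: the image of inertia is generated by the image of `τ`, conjugation by `σ` is
the `q`-th power on it, and the decomposition group is generated by the images of `σ` and `τ`.
-/
import Fermat.Agent.Galois.TamePlace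
import Mathlib.FieldTheory.Galois.GaloisClosure

set_option autoImplicit false

open scoped Pointwise

namespace Fermat.Agent.Galois

local notation "Qb" => AlgebraicClosure ℚ
local notation "Γℚ" => AlgebraicClosure ℚ ≃ₐ[ℚ] AlgebraicClosure ℚ

/-- `τ` generates inertia at `A` on the layer `L`, up to elements of `q`-power order. -/
def GeneratesLayer (A : ValuationSubring Qb) (q : ℕ) (L : IntermediateField ℚ Qb) [Normal ℚ L]
    (τ : Γℚ) : Prop :=
  (∃ h ∈ A.inertiaSubgroupIn ℚ,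
      AlgEquiv.restrictNormalHom L h = AlgEquiv.restrictNormalHom L τ) ∧
    ∀ g ∈ A.inertiaSubgroupIn ℚ, ∃ k m : ℕ,
      ((AlgEquiv.restrictNormalHom L τ ^ k)⁻¹ * AlgEquiv.restrictNormalHom L g) ^ q ^ m = 1

variable {A : ValuationSubring (AlgebraicClosure ℚ)}

theorem isClosed_generatesLayer (q : ℕ) (L : IntermediateField ℚ Qb) [FiniteDimensional ℚ L]
    [Normal ℚ L] : IsClosed {τ : Γℚ | GeneratesLayer A q L τ} :=
  (isClosed_discrete {t : L ≃ₐ[ℚ] L |
      (∃ h ∈ A.inertiaSubgroupIn ℚ, AlgEquiv.restrictNormalHom L h = t) ∧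
      ∀ g ∈ A.inertiaSubgroupIn ℚ, ∃ k m : ℕ,
        ((t ^ k)⁻¹ * AlgEquiv.restrictNormalHom L g) ^ q ^ m = 1}).preimage
    (@InfiniteGalois.restrictNormalHom_continuous ℚ Qb _ _ _ L ‹Normal ℚ L›)

theorem exists_layer_generator_data {q : ℕ} (hq : q.Prime) (hA : A.LiesOverPrime q)
    (L : IntermediateField ℚ Qb) [FiniteDimensional ℚ L] [IsGalois ℚ L] :
    ∃ s ∈ (layerPrime A L).inertia (L ≃ₐ[ℚ] L),
      (∀ g ∈ (layerPrime A L).inertia (L ≃ₐ[ℚ] L), ∃ k m : ℕ, ((s ^ k)⁻¹ * g) ^ q ^ m = 1) ∧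
      ∀ t ∈ (layerPrime A L).inertia (L ≃ₐ[ℚ] L), ∀ φ : L ≃ₐ[ℚ] L,
        φ • layerPrime A L = layerPrime A L → (∀ x, φ • x - x ^ q ∈ layerPrime A L) →
          ∃ m : ℕ, ((t ^ q)⁻¹ * (φ * t * φ⁻¹)) ^ q ^ m = 1 := by
  have : NumberField L := ⟨⟩
  have := finite_layerQuotient (L := L) hq hA
  have : FaithfulSMul (L ≃ₐ[ℚ] L) (NumberField.RingOfIntegers L) :=
    (IsGaloisGroup.of_isFractionRing (L ≃ₐ[ℚ] L) ℤ (NumberField.RingOfIntegers L) ℚ L).faithful
  exact exists_tame_layer_generator (layerPrime A L) (layerPrime_ne_bot hq hA) hq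
    (natCast_mem_layerPrime hA)

theorem nonempty_generatesLayer {q : ℕ} (hq : q.Prime) (hA : A.LiesOverPrime q)
    (L : IntermediateField ℚ Qb) [FiniteDimensional ℚ L] [IsGalois ℚ L] :
    {τ : Γℚ | GeneratesLayer A q L τ}.Nonempty := by
  obtain ⟨s, hs, hgen, -⟩ := exists_layer_generator_data hq hA L
  obtain ⟨τ, hτ, rfl⟩ := exists_inertia_lift hs
  exact ⟨τ, ⟨τ, hτ, rfl⟩, fun g hg => hgen _ (restrict_mem_inertia hg)⟩

theorem restrict_eq_of_le {L L' : IntermediateField ℚ Qb} [Normal ℚ L] [Normal ℚ L'] (hle : L ≤ L')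
    {a b : Γℚ} (h : AlgEquiv.restrictNormalHom L' a = AlgEquiv.restrictNormalHom L' b) :
    AlgEquiv.restrictNormalHom L a = AlgEquiv.restrictNormalHom L b := by
  refine AlgEquiv.ext fun y => Subtype.ext ?_
  rw [← layer_coe_apply, ← layer_coe_apply]
  have h2 := congrArg (fun t : L' ≃ₐ[ℚ] L' => ((t ⟨(y : Qb), hle y.2⟩ : L') : Qb)) h
  simp only [← layer_coe_apply] at h2
  exact h2

theorem GeneratesLayer.mono {q : ℕ} {L L' : IntermediateField ℚ Qb} [Normal ℚ L] [Normal ℚ L']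
    (hle : L ≤ L') {τ : Γℚ} (hτ : GeneratesLayer A q L' τ) : GeneratesLayer A q L τ := by
  obtain ⟨⟨h, hh, hhτ⟩, hgen⟩ := hτ
  refine ⟨⟨h, hh, restrict_eq_of_le hle hhτ⟩, fun g hg => ?_⟩
  obtain ⟨k, m, hkm⟩ := hgen g hg
  refine ⟨k, m, ?_⟩
  rw [← map_pow, ← map_inv, ← map_mul, ← map_pow] at hkm ⊢
  rw [← map_one (AlgEquiv.restrictNormalHom (F := ℚ) (K₁ := Qb) L)]
  exact restrict_eq_of_le hle (hkm.trans (map_one _).symm)

theorem GeneratesLayer.sub_mem_nonunits {q : ℕ} {L : IntermediateField ℚ Qb} [Normal ℚ L]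
    {τ : Γℚ} (hτ : GeneratesLayer A q L τ) {c : Qb} (hc : c ∈ L) (hint : IsIntegral ℤ c) :
    τ c - c ∈ A.nonunits := by
  obtain ⟨⟨h, hh, hhτ⟩, -⟩ := hτ
  have h2 := congrArg (fun t : L ≃ₐ[ℚ] L => ((t ⟨c, hc⟩ : L) : Qb)) hhτ
  simp only [← layer_coe_apply] at h2
  rw [← h2]
  exact sub_mem_nonunits_of_mem_inertiaSubgroupIn hh (mem_valuationSubring_of_isIntegral A hint)

scoped instance normal_layer (M : FiniteGaloisIntermediateField ℚ (AlgebraicClosure ℚ)) :
    Normal ℚ M.toIntermediateField := M.isGalois.to_normal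

/-- An inertia element generating tame inertia in every layer. -/
theorem exists_generatesLayer {q : ℕ} (hq : q.Prime) (hA : A.LiesOverPrime q) :
    ∃ τ ∈ A.inertiaSubgroupIn ℚ, ∀ (L : IntermediateField ℚ Qb) [FiniteDimensional ℚ L]
      [IsGalois ℚ L], GeneratesLayer A q L τ := by
  obtain ⟨τ, hτ⟩ := IsCompact.nonempty_iInter_of_directed_nonempty_isCompact_isClosed
    (fun M : FiniteGaloisIntermediateField ℚ Qb =>
      {τ : Γℚ | GeneratesLayer A q M.toIntermediateField τ})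
    (fun M M' => ⟨M ⊔ M',
      fun τ hτ => GeneratesLayer.mono (le_sup_left : M ≤ M ⊔ M') hτ,
      fun τ hτ => GeneratesLayer.mono (le_sup_right : M' ≤ M ⊔ M') hτ⟩)
    (fun M => @nonempty_generatesLayer A q hq hA M.toIntermediateField M.finiteDimensional
      M.isGalois)
    (fun M => (@isClosed_generatesLayer A q M.toIntermediateField M.finiteDimensional
      _).isCompact)
    (fun M => @isClosed_generatesLayer A q M.toIntermediateField M.finiteDimensional _)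
  rw [Set.mem_iInter] at hτ
  refine ⟨τ, MW.mem_inertiaSubgroupIn_of_centre fun c => ?_, fun L hL hG => ?_⟩
  · rw [mem_centre]
    exact (hτ (FiniteGaloisIntermediateField.adjoin ℚ {(c : Qb)})).sub_mem_nonunits
      (FiniteGaloisIntermediateField.subset_adjoin ℚ _ (Set.mem_singleton _)) c.2
  · exact hτ { toIntermediateField := L, finiteDimensional := hL, isGalois := hG }

theorem conj_mem_inertia {σ h : Γℚ} (hσ : σ ∈ A.decompositionSubgroup ℚ)
    (hh : h ∈ A.inertiaSubgroupIn ℚ) : σ * h * σ⁻¹ ∈ A.inertiaSubgroupIn ℚ := by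
  obtain ⟨i, hi, rfl⟩ := hh
  have hc : (⟨σ, hσ⟩ : A.decompositionSubgroup ℚ) * i * ⟨σ, hσ⟩⁻¹ ∈ A.inertiaSubgroup ℚ :=
    (MonoidHom.normal_ker (MulSemiringAction.toRingAut (A.decompositionSubgroup ℚ)
      (IsLocalRing.ResidueField A))).conj_mem i hi ⟨σ, hσ⟩
  exact Subgroup.mem_map.mpr ⟨_, hc, rfl⟩

theorem eq_one_of_pow_pow_eq_one {H : Type*} [Group H] {p q : ℕ} (hp : p.Prime) (hq : q.Prime)
    (hqp : q ≠ p) {x : H} {m n : ℕ} (h₁ : x ^ q ^ m = 1) (h₂ : x ^ p ^ n = 1) : x = 1 := by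
  have hco : Nat.Coprime (q ^ m) (p ^ n) :=
    ((Nat.coprime_primes hq hp).mpr hqp).pow m n
  exact orderOf_eq_one_iff.mp <| Nat.dvd_one.mp <| hco ▸
    Nat.dvd_gcd (orderOf_dvd_of_pow_eq_one h₁) (orderOf_dvd_of_pow_eq_one h₂)

theorem tame_relations_layer {p q : ℕ} (hp : p.Prime) (hq : q.Prime) (hqp : q ≠ p)
    (hA : A.LiesOverPrime q) (L : IntermediateField ℚ Qb) [FiniteDimensional ℚ L] [IsGalois ℚ L]
    {τ : Γℚ} (hτI : τ ∈ A.inertiaSubgroupIn ℚ) (hτ : GeneratesLayer A q L τ)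
    {σ : Γℚ} (hσ : A.IsFrobeniusAt σ q) {H : Type*} [Group H] (f : Γℚ →* H)
    (hker : ∀ g : Γℚ, (∀ x ∈ L, g x = x) → f g = 1)
    (hpI : ∀ g ∈ A.inertiaSubgroupIn ℚ, ∃ n : ℕ, f g ^ p ^ n = 1) :
    f σ * f τ * (f σ)⁻¹ = f τ ^ q ∧
      (∀ g ∈ A.inertiaSubgroupIn ℚ, f g ∈ Subgroup.zpowers (f τ)) ∧
      ∀ g ∈ A.decompositionSubgroup ℚ, f g ∈ Subgroup.closure {f σ, f τ} := by
  set r := AlgEquiv.restrictNormalHom (F := ℚ) (K₁ := Qb) L with hr
  have hker' : ∀ g, r g = 1 → f g = 1 := by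
    intro g hg
    refine hker g fun x hx => ?_
    have := layer_coe_apply g (⟨x, hx⟩ : L)
    rw [← hr, hg] at this
    exact this
  have hkill : ∀ h ∈ A.inertiaSubgroupIn ℚ, ∀ m : ℕ, r h ^ q ^ m = 1 → f h = 1 := by
    intro h hh m hm
    obtain ⟨n, hn⟩ := hpI h hh
    exact eq_one_of_pow_pow_eq_one hp hq hqp (m := m) (by
      rw [← map_pow]; exact hker' _ (by rw [map_pow]; exact hm)) hn
  have hcyc : ∀ g ∈ A.inertiaSubgroupIn ℚ, f g ∈ Subgroup.zpowers (f τ) := by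
    intro g hg
    obtain ⟨k, m, hkm⟩ := hτ.2 g hg
    have h := hkill ((τ ^ k)⁻¹ * g) (mul_mem (inv_mem (pow_mem hτI k)) hg) m
      (by rw [map_mul, map_inv, map_pow]; exact hkm)
    rw [map_mul, map_inv, map_pow, inv_mul_eq_one] at h
    exact h ▸ Subgroup.npow_mem_zpowers _ _
  refine ⟨?_, hcyc, fun g hg => ?_⟩
  · obtain ⟨s, hs, -, hconj⟩ := exists_layer_generator_data hq hA L
    obtain ⟨m, hm⟩ := hconj _ (restrict_mem_inertia hτI) (r σ)
      (restrict_smul_layerPrime hσ.mem_decompositionSubgroup) (frobenius_smul_sub_pow_mem hσ)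
    have h := hkill ((τ ^ q)⁻¹ * (σ * τ * σ⁻¹))
      (mul_mem (inv_mem (pow_mem hτI q)) (conj_mem_inertia hσ.mem_decompositionSubgroup hτI)) m
      (by simp only [map_mul, map_inv, map_pow]; exact hm)
    simp only [map_mul, map_inv, map_pow, inv_mul_eq_one] at h
    exact h.symm
  · obtain ⟨j, h, hh, hgh⟩ := exists_decomposition_eq (L := L) hq hA hσ hg
    have hfg : f g = f (σ ^ j * h) := by
      have h0 := hker ((σ ^ j * h)⁻¹ * g) fun x hx => by
        rw [AlgEquiv.mul_apply, hgh x hx, ← AlgEquiv.mul_apply, inv_mul_cancel, AlgEquiv.one_apply]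
      rw [map_mul, map_inv, inv_mul_eq_one] at h0
      exact h0.symm
    rw [hfg, map_mul, map_pow]
    have h1 : f σ ∈ Subgroup.closure ({f σ, f τ} : Set H) :=
      Subgroup.subset_closure (Set.mem_insert (f σ) {f τ})
    have h2 : f τ ∈ Subgroup.closure ({f σ, f τ} : Set H) :=
      Subgroup.subset_closure (Set.mem_insert_of_mem (f σ) (Set.mem_singleton (f τ)))
    exact mul_mem (pow_mem h1 j) (Subgroup.zpowers_le.mpr h2 (hcyc h hh))

/-- Relations in a finite quotient in which inertia is a `p`-group, `p ≠ q`. -/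
theorem tame_relations {p q : ℕ} (hp : p.Prime) (hq : q.Prime) (hqp : q ≠ p)
    (hA : A.LiesOverPrime q) {τ : Γℚ} (hτI : τ ∈ A.inertiaSubgroupIn ℚ)
    (hτ : ∀ (L : IntermediateField ℚ Qb) [FiniteDimensional ℚ L] [IsGalois ℚ L],
      GeneratesLayer A q L τ)
    {σ : Γℚ} (hσ : A.IsFrobeniusAt σ q) {H : Type*} [Group H] (f : Γℚ →* H)
    (hf : ∃ E : IntermediateField ℚ Qb, FiniteDimensional ℚ E ∧
      ∀ g : Γℚ, (∀ x ∈ E, g x = x) → f g = 1)
    (hpI : ∀ g ∈ A.inertiaSubgroupIn ℚ, ∃ n : ℕ, f g ^ p ^ n = 1) :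
    f σ * f τ * (f σ)⁻¹ = f τ ^ q ∧
      (∀ g ∈ A.inertiaSubgroupIn ℚ, f g ∈ Subgroup.zpowers (f τ)) ∧
      ∀ g ∈ A.decompositionSubgroup ℚ, f g ∈ Subgroup.closure {f σ, f τ} := by
  obtain ⟨E, hE, hfE⟩ := hf
  let L := IntermediateField.normalClosure ℚ E Qb
  have : FiniteDimensional ℚ L := normalClosure.is_finiteDimensional ℚ _ _
  have : IsGalois ℚ L := IsGalois.normalClosure ℚ _ _
  exact tame_relations_layer hp hq hqp hA L hτI (hτ L) hσ f
    (fun g hg => hfE g fun x hx => hg x (IntermediateField.le_normalClosure E hx)) hpI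

end Fermat.Agent.Galois
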