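/-
The tame generator of inertia at `q` acts on `q`-th roots of unity by a primitive root modulo `q`.
-/
import Fermat.Agent.Galois.TameGenerator
import Fermat.Agent.Reducible.Places
import Fermat.Agent.Datum.Roots
import Mathlib.RingTheory.RootsOfUnity.AlgebraicallyClosed

set_option autoImplicit false

open scoped Pointwise

namespace Fermat.Agent.Galois

local notation "Qb" => AlgebraicClosure ℚ
local notation "Γℚ" => AlgebraicClosure ℚ ≃ₐ[ℚ] AlgebraicClosure ℚ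

theorem exists_cycloChar (q : ℕ) [Fact q.Prime] :
    ∃ χ : Γℚ →* (ZMod q)ˣ, (∀ (g : Γℚ) (μ : Qb), μ ^ q = 1 → g μ = μ ^ (χ g : ZMod q).val) ∧
      ∀ (ζ : Qb), IsPrimitiveRoot ζ q → ∀ g : Γℚ, g ζ = ζ → χ g = 1 := by
  have hq : q.Prime := Fact.out
  haveI : NeZero q := ⟨hq.ne_zero⟩
  have hn : Nat.card (rootsOfUnity q Qb) = q := HasEnoughRootsOfUnity.natCard_rootsOfUnity Qb q
  let χ : Γℚ →* (ZMod q)ˣ :=
    (modularCyclotomicCharacter Qb hn).comp (MulSemiringAction.toRingAut Γℚ Qb)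
  have hspec : ∀ (g : Γℚ) (μ : Qb), μ ^ q = 1 → g μ = μ ^ (χ g : ZMod q).val := by
    intro g μ hμ
    have hμ0 : μ ≠ 0 := fun h => by simp [h, hq.ne_zero] at hμ
    exact modularCyclotomicCharacter.spec Qb hn (MulSemiringAction.toRingAut Γℚ Qb g)
      (t := Units.mk0 μ hμ0) (by rw [mem_rootsOfUnity]; exact Units.ext (by simpa using hμ))
  refine ⟨χ, hspec, fun ζ hζ g hg => ?_⟩
  rw [hspec g ζ hζ.pow_eq_one] at hg
  refine Units.ext (ZMod.val_injective q ?_)
  rw [Units.val_one, ZMod.val_one]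
  exact hζ.pow_inj (ZMod.val_lt _) hq.one_lt (by rwa [pow_one])

theorem mem_zpowers_of_tame {A : ValuationSubring Qb} {q : ℕ} (hq : q.Prime) {τ : Γℚ}
    (L : IntermediateField ℚ Qb) [Normal ℚ L] (hτ : GeneratesLayer A q L τ)
    (χ : Γℚ →* (ZMod q)ˣ) (hker : ∀ g : Γℚ, (∀ x ∈ L, g x = x) → χ g = 1)
    {g : Γℚ} (hg : g ∈ A.inertiaSubgroupIn ℚ) : χ g ∈ Subgroup.zpowers (χ τ) := by
  haveI := Fact.mk hq
  obtain ⟨k, m, hkm⟩ := hτ.2 g hg
  rw [← map_pow, ← map_inv, ← map_mul, ← map_pow] at hkm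
  have h : χ (((τ ^ k)⁻¹ * g) ^ q ^ m) = 1 := hker _ fun x hx => by
    have h1 := layer_coe_apply (((τ ^ k)⁻¹ * g) ^ q ^ m) (⟨x, hx⟩ : L)
    rw [hkm] at h1
    exact h1
  rw [map_pow, map_mul, map_inv, map_pow] at h
  have hord : ((χ τ ^ k)⁻¹ * χ g) ^ (q - 1) = 1 := ZMod.units_pow_card_sub_one_eq_one q _
  have hco : Nat.Coprime (q ^ m) (q - 1) :=
    (hq.coprime_iff_not_dvd.mpr (Nat.not_dvd_of_pos_of_lt (Nat.sub_pos_of_lt hq.one_lt)
      (Nat.sub_lt hq.pos Nat.one_pos))).pow_left m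
  have h1 : (χ τ ^ k)⁻¹ * χ g = 1 := orderOf_eq_one_iff.mp <| Nat.dvd_one.mp <| hco ▸
    Nat.dvd_gcd (orderOf_dvd_of_pow_eq_one h) (orderOf_dvd_of_pow_eq_one hord)
  rw [inv_mul_eq_one] at h1
  exact h1 ▸ Subgroup.npow_mem_zpowers _ _

theorem conj_mem_inertia_of_smul {A : ValuationSubring Qb} {s g : Γℚ}
    (hg : g ∈ (s • A).inertiaSubgroupIn ℚ) : s⁻¹ * g * s ∈ A.inertiaSubgroupIn ℚ := by
  refine MW.mem_inertiaSubgroupIn_of_centre fun c => ?_
  rw [mem_centre]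
  have hint : IsIntegral ℤ (s (c : Qb)) := c.2.map ((s.toAlgHom).restrictScalars ℤ)
  have h := sub_mem_nonunits_of_mem_inertiaSubgroupIn hg
    (mem_valuationSubring_of_isIntegral _ hint)
  rw [mem_smul_nonunits, AlgEquiv.smul_def, map_sub] at h
  have hs : s⁻¹ (s (c : Qb)) = c := by
    rw [← AlgEquiv.mul_apply, inv_mul_cancel, AlgEquiv.one_apply]
  rw [hs] at h
  exact h

/-- The tame generator acts on `q`-th roots of unity by a primitive root modulo `q`. -/
theorem exists_primitiveRoot_of_generatesLayer {A : ValuationSubring Qb} {q : ℕ} (hq : q.Prime)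
    (hA : A.LiesOverPrime q) {τ : Γℚ}
    (hτ : ∀ (L : IntermediateField ℚ Qb) [FiniteDimensional ℚ L] [IsGalois ℚ L],
      GeneratesLayer A q L τ) :
    ∃ c : ℕ, (∀ μ : Qb, μ ^ q = 1 → τ μ = μ ^ c) ∧ orderOf (c : ZMod q) = q - 1 := by
  haveI := Fact.mk hq
  haveI : NeZero q := ⟨hq.ne_zero⟩
  obtain ⟨χ, hspec, hfix⟩ := exists_cycloChar q
  obtain ⟨ζ, hζ⟩ := HasEnoughRootsOfUnity.exists_primitiveRoot Qb q
  let L₀ : IntermediateField ℚ Qb := IntermediateField.adjoin ℚ {ζ}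
  have : FiniteDimensional ℚ L₀ :=
    IntermediateField.adjoin.finiteDimensional (Algebra.IsIntegral.isIntegral ζ)
  let L := IntermediateField.normalClosure ℚ L₀ Qb
  have : FiniteDimensional ℚ L := normalClosure.is_finiteDimensional ℚ _ _
  have : IsGalois ℚ L := IsGalois.normalClosure ℚ _ _
  have hζL : ζ ∈ L :=
    IntermediateField.le_normalClosure L₀ (IntermediateField.mem_adjoin_simple_self ℚ ζ)
  have hker : ∀ g : Γℚ, (∀ x ∈ L, g x = x) → χ g = 1 := fun g hg => hfix ζ hζ g (hg ζ hζL)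
  set K : Subgroup Γℚ := (Subgroup.zpowers (χ τ)).comap χ with hK
  have hKopen : IsOpen (K : Set Γℚ) :=
    Subgroup.isOpen_mono (H₁ := L.fixingSubgroup)
      (fun g hg => by
        rw [hK, Subgroup.mem_comap, hker g ((IntermediateField.mem_fixingSubgroup_iff _ g).mp hg)]
        exact one_mem _)
      (IntermediateField.fixingSubgroup_isOpen L)
  have : K.Normal := by rw [hK]; infer_instance
  have htop : K = ⊤ := Reducible.eq_top_of_inertia_le K hKopen fun ℓ hℓ B hB g hg => by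
    rw [hK, Subgroup.mem_comap]
    by_cases hne : ℓ = q
    · subst hne
      obtain ⟨s, rfl⟩ := exists_smul_eq_of_liesOverPrime hℓ hA hB
      have h := mem_zpowers_of_tame hℓ L (hτ L) χ hker (conj_mem_inertia_of_smul hg)
      rwa [map_mul, map_mul, mul_right_comm, ← map_mul, inv_mul_cancel, map_one, one_mul] at h
    · rw [hfix ζ hζ g (Datum.inertia_apply_root hB hg ((Nat.coprime_primes hℓ hq).mpr hne)
        hq.ne_zero hζ.pow_eq_one)]
      exact one_mem _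
  have hsurj : ∀ u : (ZMod q)ˣ, ∃ g : Γℚ, χ g = u := by
    intro u
    have hu : IsPrimitiveRoot (ζ ^ (u : ZMod q).val) q :=
      hζ.pow_of_coprime _ (ZMod.val_coe_unit_coprime u)
    obtain ⟨g, hg⟩ := minpoly.exists_algEquiv_of_root (K := ℚ) (L := Qb)
      (Algebra.IsAlgebraic.isAlgebraic (ζ ^ (u : ZMod q).val)) (x := ζ) (by
        rw [← Polynomial.cyclotomic_eq_minpoly_rat hu hq.pos,
          Polynomial.cyclotomic_eq_minpoly_rat hζ hq.pos, minpoly.aeval])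
    rw [hspec g ζ hζ.pow_eq_one] at hg
    exact ⟨g, Units.ext (ZMod.val_injective q (hζ.pow_inj (ZMod.val_lt _) (ZMod.val_lt _) hg))⟩
  refine ⟨(χ τ : ZMod q).val, fun μ hμ => hspec τ μ hμ, ?_⟩
  rw [ZMod.natCast_val, ZMod.cast_id', id_eq, orderOf_units]
  have htop' : Subgroup.zpowers (χ τ) = ⊤ := eq_top_iff.mpr fun u _ => by
    obtain ⟨g, rfl⟩ := hsurj u
    have h : g ∈ K := htop.symm ▸ Subgroup.mem_top g
    exact h
  rw [← Nat.card_zpowers, htop', Subgroup.card_top, Nat.card_eq_fintype_card,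
    ZMod.card_units]

end Fermat.Agent.Galois
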