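import Fermat.Agent.Galois.Frobenius
import Fermat.Prelude.Def_GaloisRep_Residual
import Mathlib.RingTheory.DedekindDomain.Ideal.Lemmas
import Mathlib.NumberTheory.NumberField.Basic
import Mathlib.Algebra.CharP.Lemmas
import Mathlib.RingTheory.Filtration
import Mathlib.NumberTheory.RamificationInertia.HilbertTheory
import Mathlib.FieldTheory.Galois.IsGaloisGroup

/-!
# Inertia groups are commutative up to `p`-groups

The commutator of two inertia elements at a prime over `p` acts on every finite layer with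
`p`-power order.  In particular a finite image of inertia of order prime to `p` is commutative.
-/

set_option autoImplicit false

open scoped Pointwise

namespace Fermat.Agent.Galois

section Dedekind

variable {O : Type*} [CommRing O] {G : Type*} [Group G] [MulSemiringAction G O] (P : Ideal O)

theorem smul_mem_of_mem_inertia {σ : G} (hσ : σ ∈ P.inertia G) {x : O} (hx : x ∈ P) :
    σ • x ∈ P := by
  have h := P.add_mem (hσ x) hx
  rwa [sub_add_cancel] at h

theorem smul_mem_pow_of_mem_inertia {σ : G} (hσ : σ ∈ P.inertia G) (j : ℕ) :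
    ∀ {x : O}, x ∈ P ^ j → σ • x ∈ P ^ j := by
  induction j with
  | zero => simp
  | succ j ih =>
    intro x hx
    rw [pow_succ'] at hx ⊢
    refine Submodule.mul_induction_on hx (fun z hz w hw => ?_) fun z w hz hw => ?_
    · rw [smul_mul']
      exact Ideal.mul_mem_mul (smul_mem_of_mem_inertia P hσ hz) (ih hw)
    · rw [smul_add]
      exact add_mem hz hw

variable [IsDedekindDomain O] [P.IsPrime]

theorem exists_sub_mul_mem_sq (hP : P ≠ ⊥) {π : O} (hπ : π ∈ P) (hπ2 : π ∉ P ^ 2) {x : O}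
    (hx : x ∈ P) : ∃ a, x - a * π ∈ P ^ 2 := by
  have hlt : P ^ 2 < Ideal.span {π} ⊔ P ^ 2 := by
    refine lt_of_le_of_ne le_sup_right fun h => hπ2 ?_
    rw [h]
    exact Ideal.mem_sup_left (Ideal.mem_span_singleton_self π)
  have hle : Ideal.span {π} ⊔ P ^ 2 ≤ P ^ 1 := by
    rw [pow_one, sup_le_iff, Ideal.span_singleton_le_iff_mem]
    exact ⟨hπ, Ideal.pow_le_self two_ne_zero⟩
  have heq := Ideal.eq_prime_pow_of_succ_lt_of_le hP hlt hle
  rw [pow_one] at heq
  rw [← heq] at hx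
  obtain ⟨y, hy, z, hz, rfl⟩ := Submodule.mem_sup.mp hx
  obtain ⟨a, rfl⟩ := Ideal.mem_span_singleton'.mp hy
  exact ⟨a, by simpa using hz⟩

/-- Two inertia elements commute on `P / P ^ 2`. -/
theorem smul_smul_sub_mem_sq (hP : P ≠ ⊥) {σ τ : G} (hσ : σ ∈ P.inertia G) (hτ : τ ∈ P.inertia G)
    {x : O} (hx : x ∈ P) : σ • τ • x - τ • σ • x ∈ P ^ 2 := by
  obtain ⟨π, hπ, hπ2⟩ : ∃ π ∈ P, π ∉ P ^ 2 := by
    have h := Ideal.pow_succ_lt_pow hP 1
    rw [pow_one] at h
    exact SetLike.exists_of_lt h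
  have scal : ∀ {γ : G}, γ ∈ P.inertia G → ∃ a, ∀ {y : O}, y ∈ P → γ • y - a * y ∈ P ^ 2 := by
    intro γ hγ
    obtain ⟨a, ha⟩ := exists_sub_mul_mem_sq P hP hπ hπ2 (smul_mem_of_mem_inertia P hγ hπ)
    refine ⟨a, fun {y} hy => ?_⟩
    obtain ⟨b, hb⟩ := exists_sub_mul_mem_sq P hP hπ hπ2 hy
    have h1 : (γ • b - b) * (γ • π) ∈ P ^ 2 := by
      rw [pow_two]
      exact Ideal.mul_mem_mul (hγ b) (smul_mem_of_mem_inertia P hγ hπ)
    have h2 := smul_mem_pow_of_mem_inertia P hγ 2 hb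
    have e : γ • y - a * y = γ • (y - b * π) + (γ • b - b) * (γ • π)
        + b * (γ • π - a * π) + (-a) * (y - b * π) := by
      rw [smul_sub, smul_mul']; ring
    rw [e]
    exact add_mem (add_mem (add_mem h2 h1) (Ideal.mul_mem_left _ _ ha)) (Ideal.mul_mem_left _ _ hb)
  obtain ⟨a, ha⟩ := scal hσ
  obtain ⟨b, hb⟩ := scal hτ
  have e : σ • τ • x - τ • σ • x = (σ • (τ • x) - a * (τ • x)) + a * (τ • x - b * x)
      - ((τ • (σ • x) - b * (σ • x)) + b * (σ • x - a * x)) := by ring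
  rw [e]
  exact sub_mem (add_mem (ha (smul_mem_of_mem_inertia P hτ hx)) (Ideal.mul_mem_left _ _ (hb hx)))
    (add_mem (hb (smul_mem_of_mem_inertia P hσ hx)) (Ideal.mul_mem_left _ _ (ha hx)))

theorem sub_mem_succ_pow {γ : G} (h2 : ∀ x : O, γ • x - x ∈ P ^ 2) :
    ∀ (j : ℕ) {y : O}, y ∈ P ^ j → γ • y - y ∈ P ^ (j + 1) := by
  intro j
  induction j with
  | zero => intro y _; rw [zero_add, pow_one]; exact Ideal.pow_le_self two_ne_zero (h2 y)
  | succ j ih =>
    intro y hy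
    rw [pow_succ'] at hy
    refine Submodule.mul_induction_on hy (fun z hz w hw => ?_) fun z w hz hw => ?_
    · have e : γ • (z * w) - z * w = (γ • z - z) * (γ • w) + z * (γ • w - w) := by
        rw [smul_mul']; ring
      rw [e]
      refine add_mem ?_ ?_
      · have hγ : γ ∈ P.inertia G := fun x => Ideal.pow_le_self two_ne_zero (h2 x)
        rw [show j + 1 + 1 = 2 + j by omega, pow_add]
        exact Ideal.mul_mem_mul (h2 z) (smul_mem_pow_of_mem_inertia P hγ j hw)
      · rw [pow_succ' P (j + 1)]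
        exact Ideal.mul_mem_mul hz (ih hw)
    · rw [smul_add, add_sub_add_comm]
      exact add_mem hz hw

theorem pow_prime_smul_sub_mem {p : ℕ} (hpP : (p : O) ∈ P) {γ : G}
    (h2 : ∀ x : O, γ • x - x ∈ P ^ 2) {j : ℕ} (h : ∀ x : O, γ • x - x ∈ P ^ j) (x : O) :
    γ ^ p • x - x ∈ P ^ (j + 1) := by
  have key : ∀ i : ℕ, γ ^ i • x - x - (i : O) * (γ • x - x) ∈ P ^ (j + 1) := by
    intro i
    induction i with
    | zero => simp
    | succ i ih =>
      have h1 := smul_mem_pow_of_mem_inertia P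
        (σ := γ) (fun x => Ideal.pow_le_self two_ne_zero (h2 x)) (j + 1) ih
      have h3 := Ideal.mul_mem_left (P ^ (j + 1)) (i : O) (sub_mem_succ_pow P h2 j (h x))
      have e : γ ^ (i + 1) • x - x - ((i + 1 : ℕ) : O) * (γ • x - x) =
          γ • (γ ^ i • x - x - (i : O) * (γ • x - x)) + (i : O) * (γ • (γ • x - x) - (γ • x - x)) := by
        have hc : γ • (i : O) = (i : O) := map_natCast (MulSemiringAction.toRingHom G O γ) i
        rw [pow_succ', mul_smul, smul_sub, smul_sub, smul_mul', hc]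
        push_cast; ring
      rw [e]
      exact add_mem h1 h3
  have hlast : (p : O) * (γ • x - x) ∈ P ^ (j + 1) := by
    rw [pow_succ']
    exact Ideal.mul_mem_mul hpP (h x)
  have := add_mem (key p) hlast
  rwa [sub_add_cancel] at this

/-- An element acting trivially modulo `P ^ 2` has `p`-power order. -/
theorem exists_pow_eq_one_of_sq [Finite G] [FaithfulSMul G O] {p : ℕ} (hp : p.Prime)
    (hpP : (p : O) ∈ P) {γ : G} (h2 : ∀ x : O, γ • x - x ∈ P ^ 2) :
    ∃ m : ℕ, γ ^ p ^ m = 1 := by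
  have hall : ∀ m : ℕ, ∀ x : O, γ ^ p ^ m • x - x ∈ P ^ (m + 2) := by
    intro m
    induction m with
    | zero => simpa using h2
    | succ m ih =>
      intro x
      rw [pow_succ p m, pow_mul]
      exact pow_prime_smul_sub_mem P hpP
        (fun y => Ideal.pow_le_pow_right (by omega) (ih y)) ih x
  obtain ⟨a, r, hr, hord⟩ :=
    Nat.exists_eq_pow_mul_and_not_dvd (orderOf_pos γ).ne' p hp.ne_one
  refine ⟨a, eq_of_smul_eq_smul fun x : O => ?_⟩
  rw [one_smul, ← sub_eq_zero, ← Ideal.mem_bot,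
    ← Ideal.iInf_pow_eq_bot_of_isDomain P Ideal.IsPrime.ne_top', Submodule.mem_iInf]
  intro n
  have hpow : (γ ^ p ^ a) ^ r = 1 := by rw [← pow_mul, ← hord, pow_orderOf_eq_one]
  have hco : Nat.Coprime (orderOf (γ ^ p ^ a)) (p ^ n) :=
    Nat.Coprime.coprime_dvd_left (orderOf_dvd_of_pow_eq_one hpow)
      (Nat.Coprime.pow_right n ((Nat.Prime.coprime_iff_not_dvd hp).2 hr).symm)
  obtain ⟨k, hk⟩ := exists_pow_eq_self_of_coprime hco.symm
  have hk' : γ ^ p ^ a = (γ ^ p ^ (a + n)) ^ k := by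
    conv_lhs => rw [← hk]
    rw [← pow_mul γ (p ^ a), ← pow_add]
  rw [hk']
  have hfix : ∀ i : ℕ, (γ ^ p ^ (a + n)) ^ i • x - x ∈ P ^ n := by
    intro i
    induction i with
    | zero => simp
    | succ i ih =>
      have h1 := Ideal.pow_le_pow_right (show n ≤ a + n + 2 by omega)
        (hall (a + n) ((γ ^ p ^ (a + n)) ^ i • x))
      have := add_mem h1 ih
      rwa [sub_add_sub_cancel, smul_smul, ← pow_succ'] at this
  exact hfix k

/-- The commutator of two inertia elements has `p`-power order. -/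
theorem commutator_pow_eq_one [Finite G] [FaithfulSMul G O] [Finite (O ⧸ P)] (hP : P ≠ ⊥) {p : ℕ}
    (hp : p.Prime) (hpP : (p : O) ∈ P) {σ τ : G} (hσ : σ ∈ P.inertia G) (hτ : τ ∈ P.inertia G) :
    ∃ m : ℕ, (σ * τ * σ⁻¹ * τ⁻¹) ^ p ^ m = 1 := by
  set γ := σ * τ * σ⁻¹ * τ⁻¹ with hγdef
  have hγ : γ ∈ P.inertia G :=
    mul_mem (mul_mem (mul_mem hσ hτ) (inv_mem hσ)) (inv_mem hτ)
  have hγP : ∀ {x : O}, x ∈ P → γ • x - x ∈ P ^ 2 := by
    intro x hx
    have h := smul_smul_sub_mem_sq P hP hσ hτ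
      (smul_mem_of_mem_inertia P (inv_mem hσ) (smul_mem_of_mem_inertia P (inv_mem hτ) hx))
    simp only [smul_inv_smul, smul_smul] at h
    simpa [hγdef, mul_assoc, smul_smul] using h
  refine exists_pow_eq_one_of_sq P hp hpP fun x => ?_
  have := Fact.mk hp
  have : CharP (O ⧸ P) p := (CharP.charP_iff_prime_eq_zero hp).mpr (by
    rw [← map_natCast (Ideal.Quotient.mk P), Ideal.Quotient.eq_zero_iff_mem]; exact hpP)
  have : IsDomain (O ⧸ P) := Ideal.Quotient.isDomain P
  obtain ⟨y, hy⟩ := (Finite.injective_iff_surjective.mp (frobenius_inj (O ⧸ P) p))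
    (Ideal.Quotient.mk P x)
  obtain ⟨y, rfl⟩ := Ideal.Quotient.mk_surjective y
  rw [frobenius_def, ← map_pow, Ideal.Quotient.eq] at hy
  obtain ⟨r, hr⟩ := exists_add_pow_prime_eq hp y (γ • y - y)
  rw [add_sub_cancel] at hr
  have h1 : γ • (y ^ p) - y ^ p ∈ P ^ 2 := by
    rw [smul_pow', hr, add_assoc, add_sub_cancel_left]
    refine add_mem (Ideal.pow_le_pow_right hp.two_le (Ideal.pow_mem_pow (hγ y) p)) ?_
    have hm : (p : O) * (γ • y - y) ∈ P ^ 2 := by
      rw [pow_two]; exact Ideal.mul_mem_mul hpP (hγ y)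
    rw [show (p : O) * y * (γ • y - y) * r = (p : O) * (γ • y - y) * (y * r) by ring]
    exact Ideal.mul_mem_right _ _ hm
  have e : γ • x - x = (γ • (y ^ p) - y ^ p) - (γ • (y ^ p - x) - (y ^ p - x)) := by
    rw [smul_sub]; ring
  rw [e]
  exact sub_mem h1 (hγP hy)

end Dedekind

local notation "Γℚ" => AlgebraicClosure ℚ ≃ₐ[ℚ] AlgebraicClosure ℚ

theorem sub_mem_nonunits_of_mem_inertiaSubgroupIn {A : ValuationSubring (AlgebraicClosure ℚ)}
    {σ : Γℚ} (hσ : σ ∈ A.inertiaSubgroupIn ℚ) {a : AlgebraicClosure ℚ} (ha : a ∈ A) :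
    σ a - a ∈ A.nonunits := by
  obtain ⟨⟨g, hg⟩, hker, rfl⟩ := hσ
  have h := RingEquiv.congr_fun (MonoidHom.mem_ker.1 hker) (IsLocalRing.residue A ⟨a, ha⟩)
  change (⟨g, hg⟩ : A.decompositionSubgroup ℚ) • IsLocalRing.residue A ⟨a, ha⟩ =
    IsLocalRing.residue A ⟨a, ha⟩ at h
  rw [← IsLocalRing.ResidueField.residue_smul, ← sub_eq_zero, ← map_sub,
    IsLocalRing.residue_eq_zero_iff] at h
  exact ValuationSubring.coe_mem_nonunits_iff.2 h

/-- **Tame inertia is commutative.** In a representation with finite image, the commutator of two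
inertia elements at a place over `p` has `p`-power order. -/
theorem inertia_commutator_pow_eq_one {M : Type} [MulOneClass M] (ρ : Γℚ →* M)
    (hρ : GaloisFactorsThroughFiniteLevel ρ) {p : ℕ} (hp : p.Prime)
    {A : ValuationSubring (AlgebraicClosure ℚ)} (hA : A.LiesOverPrime p) {σ τ : Γℚ}
    (hσ : σ ∈ A.inertiaSubgroupIn ℚ) (hτ : τ ∈ A.inertiaSubgroupIn ℚ) :
    ∃ m : ℕ, ρ ((σ * τ * σ⁻¹ * τ⁻¹) ^ p ^ m) = 1 := by
  obtain ⟨L₀, hL₀, hfix⟩ := hρ
  let L := IntermediateField.normalClosure ℚ L₀ (AlgebraicClosure ℚ)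
  have hLfin : FiniteDimensional ℚ L := normalClosure.is_finiteDimensional ℚ _ _
  have hLgal : IsGalois ℚ L := IsGalois.normalClosure ℚ _ _
  have : NumberField L := ⟨⟩
  let O := NumberField.RingOfIntegers L
  let ι : O →+* A :=
    { toFun := fun x => ⟨((x : L) : AlgebraicClosure ℚ),
        mem_valuationSubring_of_isIntegral A ((x.isIntegral_coe).map (L.val.restrictScalars ℤ))⟩
      map_one' := rfl
      map_mul' := fun _ _ => rfl
      map_zero' := rfl
      map_add' := fun _ _ => rfl }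
  let P : Ideal O := (IsLocalRing.maximalIdeal A).comap ι
  have hmem : ∀ x : O, x ∈ P ↔ ((x : L) : AlgebraicClosure ℚ) ∈ A.nonunits := fun x =>
    ValuationSubring.coe_mem_nonunits_iff.symm
  have hpP : (p : O) ∈ P := by
    rw [hmem]
    have : (((p : O) : L) : AlgebraicClosure ℚ) = (p : AlgebraicClosure ℚ) :=
      map_natCast (L.val.toRingHom.comp (algebraMap O L)) p
    rw [this]
    exact hA
  have hP : P ≠ ⊥ := fun h => Nat.cast_ne_zero.2 hp.ne_zero (by rwa [h, Ideal.mem_bot] at hpP)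
  have : P.IsPrime := Ideal.IsPrime.comap ι
  have : P.IsMaximal := Ideal.IsPrime.isMaximal inferInstance hP
  have : Finite (O ⧸ P) := Ring.HasFiniteQuotients.finiteQuotient hP
  let r : Γℚ →* Gal(L/ℚ) := AlgEquiv.restrictNormalHom L
  have hcomm : ∀ (g : Γℚ) (y : L), g (y : AlgebraicClosure ℚ) = ((r g y : L) : AlgebraicClosure ℚ) :=
    fun g y => (AlgEquiv.restrictNormal_commutes g L y).symm
  have hin : ∀ {g : Γℚ}, g ∈ A.inertiaSubgroupIn ℚ → r g ∈ P.inertia Gal(L/ℚ) := by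
    intro g hg x
    change r g • x - x ∈ P
    rw [hmem]
    have := sub_mem_nonunits_of_mem_inertiaSubgroupIn hg (ι x).2
    convert this using 1
    change ((r g (x : L) : L) : AlgebraicClosure ℚ) - _ = _
    rw [← hcomm]
    rfl
  have : FaithfulSMul Gal(L/ℚ) O := (IsGaloisGroup.of_isFractionRing Gal(L/ℚ) ℤ O ℚ L).faithful
  obtain ⟨m, hm⟩ := commutator_pow_eq_one P hP hp hpP (hin hσ) (hin hτ)
  refine ⟨m, hfix _ fun x hx => ?_⟩
  rw [← map_inv, ← map_inv, ← map_mul, ← map_mul, ← map_mul, ← map_pow] at hm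
  have hxL : x ∈ L := IntermediateField.le_normalClosure L₀ hx
  rw [hcomm _ ⟨x, hxL⟩, hm]
  rfl

end Fermat.Agent.Galois
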