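/-
Inertia at a prime of a finite layer: modulo the kernel of the tame character (whose elements have
`q`-power order) it is cyclic, and a Frobenius element raises a generator to its `q`-th power.
-/
import Fermat.Agent.Galois.TameInertia
import Mathlib.RingTheory.IntegralDomain

set_option autoImplicit false

open scoped Pointwise

namespace Fermat.Agent.Galois

variable {O : Type*} [CommRing O] [IsDedekindDomain O] {G : Type*} [Group G]
  [MulSemiringAction G O] (P : Ideal O) [P.IsPrime]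

theorem mem_of_mul_mem_sq {b π : O} (hπ2 : π ∉ P ^ 2) (h : b * π ∈ P ^ 2) : b ∈ P :=
  (Ideal.IsPrime.mul_mem_pow P h).resolve_right hπ2

/-- An element of inertia acting trivially on `P / P²` acts trivially on `O / P²`. -/
theorem sub_mem_sq_of_mem_inertia [Finite (O ⧸ P)] {q : ℕ} (hq : q.Prime) (hqP : (q : O) ∈ P)
    {γ : G} (hγ : γ ∈ P.inertia G) (hγP : ∀ y ∈ P, γ • y - y ∈ P ^ 2) (x : O) :
    γ • x - x ∈ P ^ 2 := by
  have := Fact.mk hq
  have : CharP (O ⧸ P) q := (CharP.charP_iff_prime_eq_zero hq).mpr (by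
    rw [← map_natCast (Ideal.Quotient.mk P), Ideal.Quotient.eq_zero_iff_mem]; exact hqP)
  have : IsDomain (O ⧸ P) := Ideal.Quotient.isDomain P
  obtain ⟨y, hy⟩ := (Finite.injective_iff_surjective.mp (frobenius_inj (O ⧸ P) q))
    (Ideal.Quotient.mk P x)
  obtain ⟨y, rfl⟩ := Ideal.Quotient.mk_surjective y
  rw [frobenius_def, ← map_pow, Ideal.Quotient.eq] at hy
  obtain ⟨r, hr⟩ := exists_add_pow_prime_eq hq y (γ • y - y)
  rw [add_sub_cancel] at hr
  have h1 : γ • (y ^ q) - y ^ q ∈ P ^ 2 := by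
    rw [smul_pow', hr, add_assoc, add_sub_cancel_left]
    refine add_mem (Ideal.pow_le_pow_right hq.two_le (Ideal.pow_mem_pow (hγ y) q)) ?_
    have hm : (q : O) * (γ • y - y) ∈ P ^ 2 := by
      rw [pow_two]; exact Ideal.mul_mem_mul hqP (hγ y)
    rw [show (q : O) * y * (γ • y - y) * r = (q : O) * (γ • y - y) * (y * r) by ring]
    exact Ideal.mul_mem_right _ _ hm
  have e : γ • x - x = (γ • (y ^ q) - y ^ q) - (γ • (y ^ q - x) - (y ^ q - x)) := by
    rw [smul_sub]; ring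
  rw [e]
  exact sub_mem h1 (hγP _ hy)

theorem exists_mul_sub_mem_sq (hP : P ≠ ⊥) {γ : G} (hγ : γ ∈ P.inertia G) :
    ∃ a, ∀ y ∈ P, γ • y - a * y ∈ P ^ 2 := by
  obtain ⟨π, hπ, hπ2⟩ : ∃ π ∈ P, π ∉ P ^ 2 := by
    have h := Ideal.pow_succ_lt_pow hP 1
    rw [pow_one] at h
    exact SetLike.exists_of_lt h
  obtain ⟨a, ha⟩ := exists_sub_mul_mem_sq P hP hπ hπ2 (smul_mem_of_mem_inertia P hγ hπ)
  refine ⟨a, fun y hy => ?_⟩
  obtain ⟨b, hb⟩ := exists_sub_mul_mem_sq P hP hπ hπ2 hy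
  have h1 : (γ • b - b) * (γ • π) ∈ P ^ 2 := by
    rw [pow_two]
    exact Ideal.mul_mem_mul (hγ b) (smul_mem_of_mem_inertia P hγ hπ)
  have h2 := smul_mem_pow_of_mem_inertia P hγ 2 hb
  have e : γ • y - a * y = γ • (y - b * π) + (γ • b - b) * (γ • π)
      + b * (γ • π - a * π) + (-a) * (y - b * π) := by
    rw [smul_sub, smul_mul']; ring
  rw [e]
  exact add_mem (add_mem (add_mem h2 h1) (Ideal.mul_mem_left _ _ ha)) (Ideal.mul_mem_left _ _ hb)

/-- The tame character: the scalar by which an inertia element acts on `P / P²`. -/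
theorem exists_tameChar (hP : P ≠ ⊥) :
    ∃ θ : P.inertia G →* O ⧸ P, ∀ (γ : P.inertia G) (a : O),
      (∀ y ∈ P, (γ : G) • y - a * y ∈ P ^ 2) → θ γ = Ideal.Quotient.mk P a := by
  obtain ⟨π, hπ, hπ2⟩ : ∃ π ∈ P, π ∉ P ^ 2 := by
    have h := Ideal.pow_succ_lt_pow hP 1
    rw [pow_one] at h
    exact SetLike.exists_of_lt h
  choose a ha using fun γ : P.inertia G => exists_mul_sub_mem_sq P hP γ.2
  have uniq : ∀ (γ : P.inertia G) (b : O), (∀ y ∈ P, (γ : G) • y - b * y ∈ P ^ 2) →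
      Ideal.Quotient.mk P (a γ) = Ideal.Quotient.mk P b := fun γ b hb => by
    rw [Ideal.Quotient.eq]
    refine mem_of_mul_mem_sq P hπ2 ?_
    have := sub_mem (hb π hπ) (ha γ π hπ)
    rwa [sub_sub_sub_cancel_left, ← sub_mul] at this
  refine ⟨{ toFun := fun γ => Ideal.Quotient.mk P (a γ), map_one' := ?_, map_mul' := ?_ },
    fun γ b hb => uniq γ b hb⟩
  · rw [← map_one (Ideal.Quotient.mk P)]
    exact uniq 1 1 fun y _ => by simp
  · intro γ δ
    rw [← map_mul]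
    refine uniq _ _ fun y hy => ?_
    have e : ((γ * δ : P.inertia G) : G) • y - a γ * a δ * y =
        ((γ : G) • ((δ : G) • y) - a γ * ((δ : G) • y)) + a γ * ((δ : G) • y - a δ * y) := by
      rw [Subgroup.coe_mul, mul_smul]; ring
    rw [e]
    exact add_mem (ha γ _ (smul_mem_of_mem_inertia P δ.2 hy)) (Ideal.mul_mem_left _ _ (ha δ y hy))

variable [Finite G] [FaithfulSMul G O] [Finite (O ⧸ P)]

/-- **Tame inertia.** There is an inertia element `s` generating inertia up to elements of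
`q`-power order, and conjugation by a Frobenius element raises it to the power `q` up to such
elements. -/
theorem exists_tame_layer_generator (hP : P ≠ ⊥) {q : ℕ} (hq : q.Prime) (hqP : (q : O) ∈ P) :
    ∃ s ∈ P.inertia G,
      (∀ g ∈ P.inertia G, ∃ k : ℕ, ∃ m : ℕ, ((s ^ k)⁻¹ * g) ^ q ^ m = 1) ∧
      ∀ t ∈ P.inertia G, ∀ φ : G, φ • P = P → (∀ x, φ • x - x ^ q ∈ P) →
        ∃ m : ℕ, ((t ^ q)⁻¹ * (φ * t * φ⁻¹)) ^ q ^ m = 1 := by
  obtain ⟨θ, hθ⟩ := exists_tameChar (G := G) P hP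
  have hker : ∀ γ : P.inertia G, θ γ = 1 → ∃ m : ℕ, (γ : G) ^ q ^ m = 1 := by
    intro γ hγ
    refine exists_pow_eq_one_of_sq P hq hqP
      (sub_mem_sq_of_mem_inertia P hq hqP γ.2 fun y hy => ?_)
    obtain ⟨a, ha⟩ := exists_mul_sub_mem_sq P hP γ.2
    have h1 : a - 1 ∈ P := by
      rw [← Ideal.Quotient.eq, ← hθ γ a ha, hγ, map_one]
    have h2 : (a - 1) * y ∈ P ^ 2 := by
      rw [pow_two]; exact Ideal.mul_mem_mul h1 hy
    have e : (γ : G) • y - y = ((γ : G) • y - a * y) + (a - 1) * y := by ring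
    rw [e]
    exact add_mem (ha y hy) h2
  have : IsDomain (O ⧸ P) := Ideal.Quotient.isDomain P
  obtain ⟨⟨u, hu⟩, hgen⟩ := IsCyclic.exists_generator (α := θ.toHomUnits.range)
  obtain ⟨s, rfl⟩ := hu
  refine ⟨s, s.2, fun g hg => ?_, fun t ht φ hφP hφ => ?_⟩
  · obtain ⟨k, hk⟩ := mem_powers_iff_mem_zpowers.mpr (hgen ⟨_, ⟨g, hg⟩, rfl⟩)
    have hθg : θ s ^ k = θ ⟨g, hg⟩ := by
      have := congrArg (fun x : θ.toHomUnits.range => ((x : (O ⧸ P)ˣ) : O ⧸ P)) hk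
      simpa using this
    refine ⟨k, hker ((s ^ k)⁻¹ * ⟨g, hg⟩) ?_⟩
    rw [map_mul, ← hθg, ← map_pow, ← map_mul, inv_mul_cancel, map_one]
  · have hmem : ∀ y ∈ P, φ⁻¹ • y ∈ P := fun y hy => by
      rw [← Ideal.mem_pointwise_smul_iff_inv_smul_mem, hφP]; exact hy
    have hconj : φ * t * φ⁻¹ ∈ P.inertia G := fun x => by
      have h := ht (φ⁻¹ • x)
      rw [mul_smul, mul_smul]
      have h2 : φ • (t • φ⁻¹ • x - φ⁻¹ • x) ∈ P := by
        rw [← hφP]; exact Ideal.smul_mem_pointwise_smul _ _ _ h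
      rwa [smul_sub, smul_inv_smul] at h2
    refine hker ((⟨t, ht⟩ ^ q)⁻¹ * ⟨φ * t * φ⁻¹, hconj⟩) ?_
    obtain ⟨a, ha⟩ := exists_mul_sub_mem_sq P hP ht
    have hφ2 : φ • (P ^ 2) = P ^ 2 := by
      rw [pow_two, Ideal.pointwise_smul_def, Ideal.map_mul, ← Ideal.pointwise_smul_def, hφP]
    have h3 : ∀ y ∈ P, (φ * t * φ⁻¹) • y - φ • a * y ∈ P ^ 2 := fun y hy => by
      have h4 := Ideal.smul_mem_pointwise_smul φ _ _ (ha _ (hmem y hy))
      rw [hφ2, smul_sub, smul_mul', smul_inv_smul, ← mul_smul, ← mul_smul] at h4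
      exact h4
    rw [map_mul, hθ ⟨φ * t * φ⁻¹, hconj⟩ (φ • a) h3,
      (Ideal.Quotient.eq.mpr (hφ a) : Ideal.Quotient.mk P (φ • a) = Ideal.Quotient.mk P (a ^ q)),
      map_pow, ← hθ ⟨t, ht⟩ a ha, ← map_pow, ← map_mul, inv_mul_cancel, map_one]

end Fermat.Agent.Galois
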