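/-
Inertia and decomposition at the prime of a finite layer below a place of `ℚ̄`.
-/
import Fermat.Agent.Galois.TameLayer
import Fermat.Agent.MW.WeakInertia
import Mathlib.FieldTheory.Finite.Basic
import Mathlib.Algebra.Algebra.ZMod

set_option autoImplicit false

open scoped Pointwise

namespace Fermat.Agent.Galois

local notation "Qb" => AlgebraicClosure ℚ
local notation "Γℚ" => AlgebraicClosure ℚ ≃ₐ[ℚ] AlgebraicClosure ℚ

variable (A : ValuationSubring (AlgebraicClosure ℚ))
  (L : IntermediateField ℚ (AlgebraicClosure ℚ))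

/-- The integers of a layer map into every valuation subring. -/
noncomputable def layerToPlace : NumberField.RingOfIntegers L →+* A where
  toFun x := ⟨((x : L) : Qb),
    mem_valuationSubring_of_isIntegral A ((x.isIntegral_coe).map (L.val.restrictScalars ℤ))⟩
  map_one' := rfl
  map_mul' _ _ := rfl
  map_zero' := rfl
  map_add' _ _ := rfl

/-- The prime of a layer below a place. -/
noncomputable def layerPrime : Ideal (NumberField.RingOfIntegers L) :=
  (IsLocalRing.maximalIdeal A).comap (layerToPlace A L)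

variable {A L}

theorem mem_layerPrime {x : NumberField.RingOfIntegers L} :
    x ∈ layerPrime A L ↔ ((x : L) : Qb) ∈ A.nonunits :=
  ValuationSubring.coe_mem_nonunits_iff.symm

theorem natCast_mem_layerPrime {q : ℕ} (hA : A.LiesOverPrime q) :
    (q : NumberField.RingOfIntegers L) ∈ layerPrime A L := by
  rw [mem_layerPrime]
  have : (((q : NumberField.RingOfIntegers L) : L) : Qb) = (q : Qb) :=
    map_natCast (L.val.toRingHom.comp (algebraMap (NumberField.RingOfIntegers L) L)) q
  rw [this]
  exact hA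

theorem layerPrime_ne_bot {q : ℕ} (hq : q.Prime) (hA : A.LiesOverPrime q) :
    layerPrime A L ≠ ⊥ := fun h =>
  Nat.cast_ne_zero.2 hq.ne_zero (by
    have := natCast_mem_layerPrime (L := L) hA
    rwa [h, Ideal.mem_bot] at this)

instance layerPrime_isPrime : (layerPrime A L).IsPrime := Ideal.IsPrime.comap _

theorem finite_layerQuotient [FiniteDimensional ℚ L] {q : ℕ} (hq : q.Prime)
    (hA : A.LiesOverPrime q) : Finite (NumberField.RingOfIntegers L ⧸ layerPrime A L) := by
  have : NumberField L := ⟨⟩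
  exact Ring.HasFiniteQuotients.finiteQuotient (layerPrime_ne_bot hq hA)

theorem map_mem_nonunits {g : Γℚ} (hg : g ∈ A.decompositionSubgroup ℚ) {x : Qb}
    (hx : x ∈ A.nonunits) : g x ∈ A.nonunits := by
  have h : g • A = A := MulAction.mem_stabilizer_iff.mp hg
  have := (mem_smul_nonunits g A (g x)).mpr (by
    rw [AlgEquiv.smul_def, ← AlgEquiv.mul_apply, inv_mul_cancel, AlgEquiv.one_apply]; exact hx)
  rwa [h] at this

theorem layer_coe_sub (a b : NumberField.RingOfIntegers L) :
    (((a - b : NumberField.RingOfIntegers L) : L) : Qb) = ((a : L) : Qb) - ((b : L) : Qb) := rfl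

theorem layer_coe_pow (a : NumberField.RingOfIntegers L) (n : ℕ) :
    (((a ^ n : NumberField.RingOfIntegers L) : L) : Qb) = ((a : L) : Qb) ^ n :=
  map_pow (L.val.toRingHom.comp (algebraMap (NumberField.RingOfIntegers L) L)) a n

variable [Normal ℚ L]

theorem layer_coe_apply (g : Γℚ) (y : L) :
    g (y : Qb) = ((AlgEquiv.restrictNormalHom L g y : L) : Qb) :=
  (AlgEquiv.restrictNormal_commutes g L y).symm

theorem layer_coe_smul (g : Γℚ) (x : NumberField.RingOfIntegers L) :
    (((AlgEquiv.restrictNormalHom L g • x : NumberField.RingOfIntegers L) : L) : Qb) =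
      g ((x : L) : Qb) := (layer_coe_apply g (x : L)).symm

theorem restrict_mem_inertia {g : Γℚ} (hg : g ∈ A.inertiaSubgroupIn ℚ) :
    AlgEquiv.restrictNormalHom L g ∈ (layerPrime A L).inertia (L ≃ₐ[ℚ] L) := by
  intro x
  show AlgEquiv.restrictNormalHom L g • x - x ∈ layerPrime A L
  rw [mem_layerPrime]
  have h := sub_mem_nonunits_of_mem_inertiaSubgroupIn hg (layerToPlace A L x).2
  convert h using 1
  rw [layer_coe_sub, layer_coe_smul]
  rfl

theorem exists_inertia_lift {i : L ≃ₐ[ℚ] L}
    (hi : i ∈ (layerPrime A L).inertia (L ≃ₐ[ℚ] L)) :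
    ∃ g ∈ A.inertiaSubgroupIn ℚ, AlgEquiv.restrictNormalHom L g = i := by
  obtain ⟨g₀, hg₀⟩ := AlgEquiv.restrictNormalHom_surjective (F := ℚ) (K₁ := L) Qb i
  obtain ⟨g, hg, hgx⟩ := MW.exists_mem_inertia_eqOn A L g₀ fun x hx hint => by
    have hint' : IsIntegral ℤ (⟨x, hx⟩ : L) :=
      (isIntegral_algHom_iff (L.val.restrictScalars ℤ) Subtype.val_injective).mp hint
    have h : i • (⟨⟨x, hx⟩, hint'⟩ : NumberField.RingOfIntegers L) - ⟨⟨x, hx⟩, hint'⟩ ∈
        layerPrime A L := hi ⟨⟨x, hx⟩, hint'⟩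
    have h' := mem_layerPrime.mp h
    rw [← hg₀] at h'
    erw [layer_coe_sub, layer_coe_smul] at h'
    exact h'
  refine ⟨g, hg, AlgEquiv.ext fun y => Subtype.ext ?_⟩
  rw [← hg₀, ← layer_coe_apply, ← layer_coe_apply, hgx _ y.2]

theorem restrict_smul_layerPrime {g : Γℚ} (hg : g ∈ A.decompositionSubgroup ℚ) :
    AlgEquiv.restrictNormalHom L g • layerPrime A L = layerPrime A L := by
  ext x
  rw [Ideal.mem_pointwise_smul_iff_inv_smul_mem, ← map_inv, mem_layerPrime, mem_layerPrime,
    layer_coe_smul]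
  refine ⟨fun h => ?_, fun h => map_mem_nonunits (inv_mem hg) h⟩
  have h' := map_mem_nonunits hg h
  rwa [← AlgEquiv.mul_apply, mul_inv_cancel, AlgEquiv.one_apply] at h'

theorem frobenius_smul_sub_pow_mem {σ : Γℚ} {q : ℕ} (hσ : A.IsFrobeniusAt σ q)
    (x : NumberField.RingOfIntegers L) :
    AlgEquiv.restrictNormalHom L σ • x - x ^ q ∈ layerPrime A L := by
  rw [mem_layerPrime]
  have h := hσ.smul_residue_eq (IsLocalRing.residue A (layerToPlace A L x))
  rw [← IsLocalRing.ResidueField.residue_smul, ← map_pow, ← sub_eq_zero, ← map_sub,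
    IsLocalRing.residue_eq_zero_iff, ← ValuationSubring.coe_mem_nonunits_iff] at h
  convert h using 1
  rw [layer_coe_sub, layer_coe_pow, layer_coe_smul]
  rfl

/-- Automorphisms of a finite field of characteristic `q` are powers of `x ↦ x ^ q`. -/
theorem exists_pow_eq_of_finite {k : Type*} [Field k] [Finite k] {q : ℕ} (hq : q.Prime)
    [CharP k q] (e : k ≃+* k) : ∃ j : ℕ, ∀ x, e x = x ^ q ^ j := by
  haveI := Fact.mk hq
  letI : Algebra (ZMod q) k := ZMod.algebra k q
  obtain ⟨⟨j, hlt⟩, hj⟩ :=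
    (FiniteField.bijective_frobeniusAlgEquivOfAlgebraic_pow (ZMod q) k).2
      (AlgEquiv.ofRingEquiv (f := e) fun x => by
        exact congrFun (congrArg DFunLike.coe
          (RingHom.ext_zmod ((e : k →+* k).comp (algebraMap (ZMod q) k)) (algebraMap (ZMod q) k))) x)
  refine ⟨j, fun x => ?_⟩
  have h := congrArg (fun g : k ≃ₐ[ZMod q] k => g x) hj
  simp only [AlgEquiv.coe_pow, FiniteField.coe_frobeniusAlgEquivOfAlgebraic, pow_iterate,
    Fintype.card_eq_nat_card, Nat.card_zmod] at h
  exact h.symm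

/-- Modulo inertia, an element of the decomposition group agrees on a layer with a power of a
Frobenius element. -/
theorem exists_decomposition_eq [FiniteDimensional ℚ L] {q : ℕ} (hq : q.Prime)
    (hA : A.LiesOverPrime q) {σ : Γℚ} (hσ : A.IsFrobeniusAt σ q) {g : Γℚ}
    (hg : g ∈ A.decompositionSubgroup ℚ) :
    ∃ j : ℕ, ∃ h ∈ A.inertiaSubgroupIn ℚ, ∀ x ∈ L, g x = (σ ^ j * h) x := by
  have : NumberField L := ⟨⟩
  set P := layerPrime A L with hPdef
  have := finite_layerQuotient (L := L) hq hA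
  have : P.IsMaximal := Ideal.IsPrime.isMaximal inferInstance (layerPrime_ne_bot hq hA)
  letI := Ideal.Quotient.field P
  haveI := Fact.mk hq
  have : CharP (NumberField.RingOfIntegers L ⧸ P) q := (CharP.charP_iff_prime_eq_zero hq).mpr (by
    rw [← map_natCast (Ideal.Quotient.mk P), Ideal.Quotient.eq_zero_iff_mem]
    exact natCast_mem_layerPrime hA)
  set r := AlgEquiv.restrictNormalHom (F := ℚ) (K₁ := Qb) L with hr
  obtain ⟨j, hj⟩ := exists_pow_eq_of_finite hq
    (Ideal.quotientEquiv P P (MulSemiringAction.toRingEquiv (L ≃ₐ[ℚ] L) _ (r g))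
      (restrict_smul_layerPrime hg).symm)
  have hσj : ∀ (i : ℕ) (x : NumberField.RingOfIntegers L), r (σ ^ i) • x - x ^ q ^ i ∈ P := by
    intro i
    induction i with
    | zero => intro x; simp
    | succ i ih =>
      intro x
      have h1 := Ideal.smul_mem_pointwise_smul (r σ) _ _ (ih x)
      rw [hPdef, hr, restrict_smul_layerPrime hσ.mem_decompositionSubgroup] at h1
      rw [smul_sub, ← hr, ← hPdef] at h1
      have h2 : r σ • x ^ q ^ i - (x ^ q ^ i) ^ q ∈ P := frobenius_smul_sub_pow_mem hσ _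
      have h3 := add_mem h1 h2
      rwa [sub_add_sub_cancel, ← mul_smul, ← map_mul, ← pow_succ', ← pow_mul, ← pow_succ] at h3
  obtain ⟨h, hh, hhx⟩ := MW.exists_mem_inertia_eqOn A L ((σ ^ j)⁻¹ * g) fun x hx hint => by
    have hint' : IsIntegral ℤ (⟨x, hx⟩ : L) :=
      (isIntegral_algHom_iff (L.val.restrictScalars ℤ) Subtype.val_injective).mp hint
    let y : NumberField.RingOfIntegers L := ⟨⟨x, hx⟩, hint'⟩
    have h1 : r g • y - r (σ ^ j) • y ∈ P := by
      have e := hj (Ideal.Quotient.mk P y)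
      rw [Ideal.quotientEquiv_mk, ← map_pow, Ideal.Quotient.eq] at e
      have h2 := sub_mem e (hσj j y)
      rwa [sub_sub_sub_cancel_right] at h2
    rw [hPdef, mem_layerPrime] at h1
    have h4 := map_mem_nonunits (inv_mem (pow_mem hσ.mem_decompositionSubgroup j)) h1
    convert h4 using 1
    have eg : (((r g • y : NumberField.RingOfIntegers L) : L) : Qb) = g x := layer_coe_smul g y
    have es : (((r (σ ^ j) • y : NumberField.RingOfIntegers L) : L) : Qb) = (σ ^ j) x :=
      layer_coe_smul (σ ^ j) y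
    rw [layer_coe_sub, eg, es, map_sub, AlgEquiv.mul_apply, ← AlgEquiv.mul_apply _ (σ ^ j), inv_mul_cancel,
      AlgEquiv.one_apply]
  refine ⟨j, h, hh, fun x hx => ?_⟩
  rw [AlgEquiv.mul_apply, hhx x hx, ← AlgEquiv.mul_apply, mul_inv_cancel_left]

end Fermat.Agent.Galois
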